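import Fermat.Agent.S20.Infinity.Linear

/-!
# The dual frame vanishes at `i∞`
-/

open UpperHalfPlane hiding I
open Filter Function Complex Asymptotics Finset Matrix
open scoped Manifold Topology Real

namespace Fermat.Agent.S20.Infinity

noncomputable section

variable {Q : Type*} {σ : Q → Q} {N : ℕ}

/-- `proj` as a linear map on vectors. -/
def projL (σ : Q → Q) (N r : ℕ) : (Q → ℂ) →ₗ[ℂ] (Q → ℂ) where
  toFun := proj σ N r
  map_add' := proj_add r
  map_smul' c v := proj_smul r c v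

@[simp] lemma projL_apply (r : ℕ) (v : Q → ℂ) : projL σ N r v = proj σ N r v := rfl

lemma proj_proj (hσ : ∀ q, σ^[N] q = q) {r s : ℕ} (hr : r < N) (hs : s < N) (v : Q → ℂ) :
    proj σ N r (proj σ N s v) = if r = s then proj σ N s v else 0 :=
  proj_of_eigen hr hs (fun q => proj_shift (by omega) hσ s v q)

/-- `e w = ∑_r w^r π_r`. -/
def eL (σ : Q → Q) (N : ℕ) (w : ℂ) : (Q → ℂ) →ₗ[ℂ] (Q → ℂ) :=
  ∑ r ∈ range N, (w ^ r) • projL σ N r

lemma eL_apply (w : ℂ) (v : Q → ℂ) :
    eL σ N w v = ∑ r ∈ range N, (w ^ r) • proj σ N r v := by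
  simp [eL, LinearMap.sum_apply]

lemma eL_comp_inv (hN : N ≠ 0) (hσ : ∀ q, σ^[N] q = q) {w : ℂ} (hw : w ≠ 0) :
    eL σ N w ∘ₗ eL σ N w⁻¹ = LinearMap.id := by
  apply LinearMap.ext
  intro v
  show eL σ N w (eL σ N w⁻¹ v) = v
  rw [eL_apply, eL_apply]
  have h1 : ∀ r ∈ range N, (w ^ r) • proj σ N r (∑ s ∈ range N, (w⁻¹ ^ s) • proj σ N s v)
      = proj σ N r v := by
    intro r hr
    have hr' := mem_range.mp hr
    rw [proj_finset_sum]
    have h2 : ∀ s ∈ range N, proj σ N r ((w⁻¹ ^ s) • proj σ N s v)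
        = if r = s then (w⁻¹ ^ s) • proj σ N s v else 0 := by
      intro s hs
      rw [proj_smul, proj_proj hσ hr' (mem_range.mp hs)]
      split_ifs <;> simp
    rw [Finset.sum_congr rfl h2, Finset.sum_ite_eq (range N) r]
    simp only [hr, if_true]
    rw [smul_smul, inv_pow, mul_inv_cancel₀ (pow_ne_zero _ hw), one_smul]
  rw [Finset.sum_congr rfl h1]
  funext q
  rw [Finset.sum_apply]
  exact sum_proj hN v q

lemma tendsto_div_qN_pow {g : ℍ → ℂ}
    (hg : g =O[atImInfty] fun τ => Real.exp (-2 * π * τ.im)) {r : ℕ} (hr : r < N) :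
    Tendsto (fun z => g z * (qN N z)⁻¹ ^ r) atImInfty (𝓝 0) := by
  have hN : 0 < N := by omega
  have hg' : g =O[atImInfty] (fun z => qN N z ^ N) := by
    refine hg.trans (IsBigO.of_norm_right ?_)
    simp_rw [norm_pow, norm_qN, ← Real.exp_nat_mul]
    have : ∀ z : ℍ, (N : ℝ) * (-2 * π * z.im / N) = -2 * π * z.im := by
      intro z
      have : (N : ℝ) ≠ 0 := by exact_mod_cast hN.ne'
      field_simp
    simp_rw [this]
    exact isBigO_refl _ _
  have h1 : (fun z => g z * (qN N z)⁻¹ ^ r) =O[atImInfty] (fun z => qN N z ^ (N - r)) := by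
    have h3 := hg'.mul (isBigO_refl (fun z => (qN N z)⁻¹ ^ r) atImInfty)
    refine h3.congr (fun z => rfl) (fun z => ?_)
    have hq := qN_ne_zero N z
    have : qN N z ^ N = qN N z ^ (N - r) * qN N z ^ r := by
      rw [← pow_add]; congr 1; omega
    rw [this, inv_pow, mul_assoc, mul_inv_cancel₀ (pow_ne_zero _ hq), mul_one]
  have h2 : Tendsto (fun z => qN N z ^ (N - r)) atImInfty (𝓝 0) := by
    have := (tendsto_qN hN).pow (N - r)
    rwa [zero_pow (by omega)] at this
  exact h1.trans_tendsto h2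

variable [Fintype Q] [DecidableEq Q]

/-- the regularised frame matrix. -/
def flatMat (σ : Q → Q) (N : ℕ) (f : Q → Q → ℍ → ℂ) (z : ℍ) : Matrix Q Q ℂ :=
  Matrix.of fun q i => flat σ N (f i) q z

/-- the matrix of leading vectors. -/
def leadMat (σ : Q → Q) (N : ℕ) (f : Q → Q → ℍ → ℂ) : Matrix Q Q ℂ :=
  Matrix.of fun q i => lead σ N (f i) q

omit [Fintype Q] [DecidableEq Q] in
lemma tendsto_flatMat {f : Q → Q → ℍ → ℂ} (hf : ∀ i, IsAdm σ (f i)) (hσ : ∀ q, σ^[N] q = q) :
    Tendsto (flatMat σ N f) atImInfty (𝓝 (leadMat σ N f)) := by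
  refine tendsto_pi_nhds.mpr fun q => tendsto_pi_nhds.mpr fun i => ?_
  exact (hf i).tendsto_flat hσ q

omit [Fintype Q] [DecidableEq Q] in
lemma proj_flat (hσ : ∀ q, σ^[N] q = q) (F : Q → ℍ → ℂ) {r : ℕ} (hr : r < N) (z : ℍ) :
    proj σ N r (fun q => flat σ N F q z) = fun q => comp σ N r F q z := by
  have h0 : (fun q => flat σ N F q z) = ∑ s ∈ range N, fun q => comp σ N s F q z := by
    funext q; simp [flat, Finset.sum_apply]
  rw [h0, proj_finset_sum]
  have h1 : ∀ s ∈ range N, proj σ N r (fun q => comp σ N s F q z)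
      = if r = s then (fun q => comp σ N s F q z) else 0 :=
    fun s hs => proj_of_eigen hr (mem_range.mp hs)
      (fun q => IsAdm.comp_shift (by omega) hσ F s q z)
  rw [Finset.sum_congr rfl h1, Finset.sum_ite_eq (range N) r]
  simp [hr]

/-- `Φ(z) = E(z) Φ^♭(z)`. -/
lemma frame_eq (hN : N ≠ 0) (hσ : ∀ q, σ^[N] q = q) (f : Q → Q → ℍ → ℂ) (z : ℍ) :
    (Matrix.of fun q i => f i q z) = LinearMap.toMatrix' (eL σ N (qN N z)) * flatMat σ N f z := by
  ext q i
  rw [Matrix.mul_apply']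
  have h1 : (LinearMap.toMatrix' (eL σ N (qN N z)) q) ⬝ᵥ (fun q' => flatMat σ N f z q' i)
      = (LinearMap.toMatrix' (eL σ N (qN N z)) *ᵥ (fun q' => flat σ N (f i) q' z)) q := rfl
  rw [show (fun k => flatMat σ N f z k i) = (fun q' => flatMat σ N f z q' i) from rfl] 
  rw [h1, LinearMap.toMatrix'_mulVec, eL_apply, Finset.sum_apply, Matrix.of_apply,
    IsAdm.eq_sum_comp (σ := σ) hN (f i) q z]
  refine Finset.sum_congr rfl fun r hr => ?_
  rw [proj_flat hσ (f i) (mem_range.mp hr) z]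
  rfl

/-- **The dual frame vanishes at infinity.** -/
theorem isZeroAtImInfty_of_dual (hN : N ≠ 0) (hσ : ∀ q, σ^[N] q = q) {f : Q → Q → ℍ → ℂ}
    (hf : ∀ i, IsAdm σ (f i)) (hA : (leadMat σ N f).det ≠ 0) {X g : Q → ℍ → ℂ}
    (hg : ∀ i, g i =O[atImInfty] fun τ => Real.exp (-2 * π * τ.im))
    (hX : ∀ i z, ∑ q, f i q z * X q z = g i z) (q : Q) : IsZeroAtImInfty (X q) := by
  -- convergence of the inverse
  have hM := tendsto_flatMat hf hσ
  have hdet : Tendsto (fun z => (flatMat σ N f z).det) atImInfty (𝓝 (leadMat σ N f).det) :=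
    (continuous_id.matrix_det.tendsto _).comp hM
  have hev : ∀ᶠ z in atImInfty, (flatMat σ N f z).det ≠ 0 := hdet.eventually_ne hA
  have hinv : Tendsto (fun z => (flatMat σ N f z)⁻¹) atImInfty (𝓝 (leadMat σ N f)⁻¹) := by
    have hc : ContinuousAt Ring.inverse (leadMat σ N f).det := by
      have : (Ring.inverse : ℂ → ℂ) = Inv.inv := by funext x; exact Ring.inverse_eq_inv x
      rw [this]
      exact continuousAt_inv₀ hA
    exact (continuousAt_matrix_inv _ hc).tendsto.comp hM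
  -- the formula for `X`
  have hform : ∀ᶠ z in atImInfty, X q z =
      ∑ q', ∑ i, ∑ r ∈ range N, (g i z * (qN N z)⁻¹ ^ r) * ((flatMat σ N f z)⁻¹ i q' *
        proj σ N r (Pi.single q 1) q') := by
    filter_upwards [hev] with z hz
    set E := LinearMap.toMatrix' (eL σ N (qN N z)) with hE
    set E' := LinearMap.toMatrix' (eL σ N (qN N z)⁻¹) with hE'
    set M := flatMat σ N f z with hMdef
    have hEE' : E * E' = 1 := by
      rw [hE, hE', ← LinearMap.toMatrix'_comp, eL_comp_inv hN hσ (qN_ne_zero N z),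
        LinearMap.toMatrix'_id]
    have hunit : IsUnit M.det := isUnit_iff_ne_zero.mpr hz
    have h1 : (fun q => X q z) ᵥ* (E * M) = fun i => g i z := by
      rw [← frame_eq hN hσ f z]
      funext i
      rw [← hX i z]
      simp only [Matrix.vecMul, dotProduct, Matrix.of_apply]
      exact Finset.sum_congr rfl fun q _ => mul_comm _ _
    have h2 : (fun q => X q z) ᵥ* E = (fun i => g i z) ᵥ* M⁻¹ := by
      rw [← h1, Matrix.vecMul_vecMul, Matrix.mul_assoc, Matrix.mul_nonsing_inv _ hunit,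
        Matrix.mul_one]
    have h3 : (fun q => X q z) = ((fun i => g i z) ᵥ* M⁻¹) ᵥ* E' := by
      rw [← h2, Matrix.vecMul_vecMul, hEE', Matrix.vecMul_one]
    have h4 := congrFun h3 q
    rw [h4]
    simp only [Matrix.vecMul, dotProduct]
    refine Finset.sum_congr rfl fun q' _ => ?_
    rw [Finset.sum_mul]
    refine Finset.sum_congr rfl fun i _ => ?_
    have h5 : E' q' q = ∑ r ∈ range N, (qN N z)⁻¹ ^ r * proj σ N r (Pi.single q 1) q' := by
      rw [hE', LinearMap.toMatrix'_apply, eL_apply, Finset.sum_apply]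
      refine Finset.sum_congr rfl fun r _ => ?_
      simp only [Pi.smul_apply, smul_eq_mul]
    rw [h5, Finset.mul_sum]
    exact Finset.sum_congr rfl fun r _ => by ring
  rw [IsZeroAtImInfty, ZeroAtFilter]
  refine Tendsto.congr' (EventuallyEq.symm hform) ?_
  have hz : (0 : ℂ) = ∑ _q' : Q, ∑ _i : Q, ∑ _r ∈ range N, (0 : ℂ) := by simp
  rw [hz]
  refine tendsto_finsetSum _ fun q' _ => tendsto_finsetSum _ fun i _ =>
    tendsto_finsetSum _ fun r hr => ?_
  have t1 := tendsto_div_qN_pow (hg i) (mem_range.mp hr)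
  have t2 : Tendsto (fun z => (flatMat σ N f z)⁻¹ i q') atImInfty (𝓝 ((leadMat σ N f)⁻¹ i q')) :=
    (tendsto_pi_nhds.mp (tendsto_pi_nhds.mp hinv i) q')
  simpa using t1.mul (t2.mul_const (proj σ N r (Pi.single q 1) q'))

end

end Fermat.Agent.S20.Infinity
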