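import Fermat.Agent.S20.Infinity.Proj

/-!
# Leading vector at `i∞` of a vector of functions permuted by `z ↦ z + 1`
-/

open UpperHalfPlane hiding I
open Filter Function Complex Asymptotics Finset
open scoped Manifold Topology Real

namespace Fermat.Agent.S20.Infinity

noncomputable section

variable {Q : Type*}

/-- Admissible vectors of functions: holomorphic, bounded at `i∞`, permuted by `z ↦ z + 1`. -/
structure IsAdm (σ : Q → Q) (F : Q → ℍ → ℂ) : Prop where
  holo : ∀ q, MDiff (F q)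
  bdd : ∀ q, IsBoundedAtImInfty (F q)
  shift : ∀ q z, F q ((1 : ℝ) +ᵥ z) = F (σ q) z

lemma bdd_iff_mem {f : ℍ → ℂ} : IsBoundedAtImInfty f ↔ f ∈ boundedAtImInftySubalgebra ℂ := Iff.rfl

variable {σ : Q → Q} {N : ℕ}

lemma proj_apply (r : ℕ) (F : Q → ℍ → ℂ) (q : Q) (z : ℍ) :
    proj σ N r F q z = (N : ℂ)⁻¹ * ∑ a ∈ range N, (zeta N)⁻¹ ^ (a * r) * F (σ^[a] q) z := by
  simp [proj, Finset.sum_apply]

namespace IsAdm

variable {F G : Q → ℍ → ℂ}

lemma add (hF : IsAdm σ F) (hG : IsAdm σ G) : IsAdm σ (F + G) where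
  holo q := (hF.holo q).add (hG.holo q)
  bdd q := (boundedAtImInftySubalgebra ℂ).add_mem (hF.bdd q) (hG.bdd q)
  shift q z := by simp [hF.shift, hG.shift]

lemma const_smul (hF : IsAdm σ F) (c : ℂ) : IsAdm σ (c • F) where
  holo q := (hF.holo q).const_smul c
  bdd q := (boundedAtImInftySubalgebra ℂ).smul_mem (hF.bdd q) c
  shift q z := by simp [hF.shift]

lemma zero : IsAdm σ (0 : Q → ℍ → ℂ) where
  holo _ := mdifferentiable_const
  bdd _ := (boundedAtImInftySubalgebra ℂ).zero_mem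
  shift _ _ := rfl

/-- multiplication by a `1`-periodic bounded holomorphic function. -/
lemma fun_smul (hF : IsAdm σ F) {c : ℍ → ℂ} (hc : MDiff c) (hcb : IsBoundedAtImInfty c)
    (hcp : ∀ z : ℍ, c ((1 : ℝ) +ᵥ z) = c z) : IsAdm σ (fun q => c * F q) where
  holo q := hc.mul (hF.holo q)
  bdd q := (boundedAtImInftySubalgebra ℂ).mul_mem hcb (hF.bdd q)
  shift q z := by simp [hF.shift, hcp]

lemma holo_proj (hF : IsAdm σ F) (r : ℕ) (q : Q) : MDiff (proj σ N r F q) := by
  unfold proj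
  exact (MDifferentiable.sum fun a _ => (hF.holo _).const_smul _).const_smul _

lemma bdd_proj (hF : IsAdm σ F) (r : ℕ) (q : Q) : IsBoundedAtImInfty (proj σ N r F q) := by
  unfold proj
  exact (boundedAtImInftySubalgebra ℂ).smul_mem
    ((boundedAtImInftySubalgebra ℂ).sum_mem fun a _ =>
      (boundedAtImInftySubalgebra ℂ).smul_mem (hF.bdd _) _) _

lemma proj_vadd (hF : IsAdm σ F) (r : ℕ) (q : Q) (z : ℍ) :
    proj σ N r F q ((1 : ℝ) +ᵥ z) = proj σ N r F (σ q) z := by
  simp only [proj_apply, hF.shift]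
  congr 1
  refine Finset.sum_congr rfl fun a _ => ?_
  rw [← Function.iterate_succ_apply' σ a q, Function.iterate_succ_apply σ a q]

lemma proj_twist (hF : IsAdm σ F) (hN : N ≠ 0) (hσ : ∀ q, σ^[N] q = q) (r : ℕ) (q : Q) (z : ℍ) :
    proj σ N r F q ((1 : ℝ) +ᵥ z) = zeta N ^ r * proj σ N r F q z := by
  rw [hF.proj_vadd, proj_shift hN hσ]
  rfl

end IsAdm

/-- the `r`-th normalised component `q_N^{-r} π_r F`. -/
def comp (σ : Q → Q) (N r : ℕ) (F : Q → ℍ → ℂ) (q : Q) (z : ℍ) : ℂ :=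
  proj σ N r F q z / qN N z ^ r

/-- the limit at `i∞` of the `r`-th normalised component. -/
def leadr (σ : Q → Q) (N r : ℕ) (F : Q → ℍ → ℂ) (q : Q) : ℂ :=
  valueAtInfty (comp σ N r F q)

/-- the leading vector at `i∞`. -/
def lead (σ : Q → Q) (N : ℕ) (F : Q → ℍ → ℂ) (q : Q) : ℂ :=
  ∑ r ∈ range N, leadr σ N r F q

/-- the regularised vector `F^♭ = ∑_r q_N^{-r} π_r F`, which tends to `lead F`. -/
def flat (σ : Q → Q) (N : ℕ) (F : Q → ℍ → ℂ) (q : Q) (z : ℍ) : ℂ :=
  ∑ r ∈ range N, comp σ N r F q z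

namespace IsAdm

variable {F G : Q → ℍ → ℂ}

lemma holo_comp (hF : IsAdm σ F) (r : ℕ) (q : Q) : MDiff (comp σ N r F q) :=
  (hF.holo_proj r q).div ((mdiff_qN N).pow r) (fun z => pow_ne_zero _ (qN_ne_zero N z))

lemma bdd_comp (hF : IsAdm σ F) (hσ : ∀ q, σ^[N] q = q) {r : ℕ} (hr : r < N) (q : Q) :
    IsBoundedAtImInfty (comp σ N r F q) :=
  twisted_bdd (hF.holo_proj r q) (hF.bdd_proj r q) hr (hF.proj_twist (by omega) hσ r q)

lemma comp_vadd (hF : IsAdm σ F) (hN : N ≠ 0) (hσ : ∀ q, σ^[N] q = q) (r : ℕ) (q : Q) (z : ℍ) :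
    comp σ N r F q ((1 : ℝ) +ᵥ z) = comp σ N r F q z := by
  unfold comp
  rw [hF.proj_twist hN hσ, qN_vadd_one, mul_pow]
  have := zeta_ne_zero N
  have := qN_ne_zero N z
  field_simp

lemma tendsto_comp (hF : IsAdm σ F) (hσ : ∀ q, σ^[N] q = q) {r : ℕ} (hr : r < N) (q : Q) :
    Tendsto (comp σ N r F q) atImInfty (𝓝 (leadr σ N r F q)) :=
  tendsto_valueAtInfty one_pos (hF.comp_vadd (by omega) hσ r q) (hF.holo_comp r q)
    (hF.bdd_comp hσ hr q)

lemma tendsto_flat (hF : IsAdm σ F) (hσ : ∀ q, σ^[N] q = q) (q : Q) :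
    Tendsto (flat σ N F q) atImInfty (𝓝 (lead σ N F q)) := by
  unfold flat lead
  exact tendsto_finsetSum _ fun r hr => hF.tendsto_comp hσ (mem_range.mp hr) q

lemma comp_shift (hN : N ≠ 0) (hσ : ∀ q, σ^[N] q = q) (F : Q → ℍ → ℂ) (r : ℕ) (q : Q) (z : ℍ) :
    comp σ N r F (σ q) z = zeta N ^ r * comp σ N r F q z := by
  unfold comp
  rw [proj_shift hN hσ]
  simp [mul_div_assoc]

lemma leadr_shift (hF : IsAdm σ F) (hσ : ∀ q, σ^[N] q = q) {r : ℕ} (hr : r < N) (q : Q) :
    leadr σ N r F (σ q) = zeta N ^ r • leadr σ N r F q := by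
  have h1 := hF.tendsto_comp hσ hr (σ q)
  have h2 := (hF.tendsto_comp hσ hr q).const_mul (zeta N ^ r)
  have h3 : comp σ N r F (σ q) = fun z => zeta N ^ r * comp σ N r F q z := by
    funext z; exact comp_shift (by omega) hσ F r q z
  rw [h3] at h1
  exact tendsto_nhds_unique h1 h2

/-- reconstruction of `F` from its normalised components. -/
lemma eq_sum_comp (hN : N ≠ 0) (F : Q → ℍ → ℂ) (q : Q) (z : ℍ) :
    F q z = ∑ r ∈ range N, qN N z ^ r * comp σ N r F q z := by
  have h := congrFun (sum_proj (σ := σ) hN F q) z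
  rw [Finset.sum_apply] at h
  rw [← h]
  refine Finset.sum_congr rfl fun r _ => ?_
  unfold comp
  have := qN_ne_zero N z
  field_simp

end IsAdm

lemma proj_finset_sum {X : Type*} [AddCommGroup X] [Module ℂ X] {ι : Type*} (s : Finset ι)
    (r : ℕ) (F : ι → Q → X) :
    proj σ N r (∑ i ∈ s, F i) = ∑ i ∈ s, proj σ N r (F i) := by
  classical
  induction s using Finset.induction_on with
  | empty => simp [proj_zero_fun]
  | insert a s ha ih => rw [Finset.sum_insert ha, Finset.sum_insert ha, proj_add, ih]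

namespace IsAdm

variable {F G : Q → ℍ → ℂ}

/-- the `r`-th Fourier projection of the leading vector is the `r`-th leading component. -/
lemma proj_lead (hF : IsAdm σ F) (hσ : ∀ q, σ^[N] q = q) {r : ℕ} (hr : r < N) :
    proj σ N r (lead σ N F) = leadr σ N r F := by
  have h0 : lead σ N F = ∑ s ∈ range N, leadr σ N s F := by
    funext q; simp [lead, Finset.sum_apply]
  rw [h0, proj_finset_sum]
  have h1 : ∀ s ∈ range N, proj σ N r (leadr σ N s F) = if r = s then leadr σ N s F else 0 :=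
    fun s hs => proj_of_eigen hr (mem_range.mp hs) (hF.leadr_shift hσ (mem_range.mp hs))
  rw [Finset.sum_congr rfl h1, Finset.sum_ite_eq (range N) r]
  simp [hr]

lemma leadr_eq_zero_of_lead (hF : IsAdm σ F) (hσ : ∀ q, σ^[N] q = q) (h : lead σ N F = 0)
    {r : ℕ} (hr : r < N) : leadr σ N r F = 0 := by
  rw [← hF.proj_lead hσ hr, h, proj_zero_fun]

/-- **Saturation at infinity**: if the leading vector vanishes then every component decays like
`exp (-2 π y)`. -/
theorem isBigO_of_lead_eq_zero (hF : IsAdm σ F) (hN : N ≠ 0) (hσ : ∀ q, σ^[N] q = q)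
    (h : lead σ N F = 0) (q : Q) :
    F q =O[atImInfty] fun τ => Real.exp (-2 * π * τ.im) := by
  have h1 : F q = fun z => ∑ r ∈ range N, qN N z ^ r * comp σ N r F q z := by
    funext z; exact eq_sum_comp hN F q z
  rw [h1]
  refine IsBigO.fun_sum fun r hr => ?_
  have hr' := mem_range.mp hr
  have hz : IsZeroAtImInfty (comp σ N r F q) := by
    have := hF.tendsto_comp hσ hr' q
    rwa [hF.leadr_eq_zero_of_lead hσ h hr'] at this
  have hdec := hz.exp_decay_atImInfty one_pos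
    (periodic_comp_ofComplex_of (hF.comp_vadd hN hσ r q)) (hF.holo_comp r q)
    (hF.bdd_comp hσ hr' q)
  have hq : (fun z => qN N z ^ r) =O[atImInfty] (fun _ : ℍ => (1 : ℝ)) := by
    refine IsBigO.of_bound 1 (Eventually.of_forall fun z => ?_)
    rw [norm_pow, norm_qN]
    simp only [norm_one, mul_one]
    refine pow_le_one₀ (Real.exp_pos _).le ?_
    rw [Real.exp_le_one_iff]
    have := z.im_pos
    have hpi := Real.pi_pos
    apply div_nonpos_of_nonpos_of_nonneg
    · nlinarith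
    · positivity
  simpa using hq.mul hdec

end IsAdm

end

end Fermat.Agent.S20.Infinity
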