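import Fermat.Agent.S20.Infinity.Lead

/-!
# Linearity properties of the leading vector, limits of the components
-/

open UpperHalfPlane hiding I
open Filter Function Complex Asymptotics Finset
open scoped Manifold Topology Real

namespace Fermat.Agent.S20.Infinity

noncomputable section

variable {Q : Type*} {σ : Q → Q} {N : ℕ}

lemma leadr_eq_of_tendsto {F : Q → ℍ → ℂ} {r : ℕ} {q : Q} {v : ℂ}
    (h : Tendsto (comp σ N r F q) atImInfty (𝓝 v)) : leadr σ N r F q = v :=
  h.limUnder_eq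

lemma comp_add (r : ℕ) (F G : Q → ℍ → ℂ) (q : Q) (z : ℍ) :
    comp σ N r (F + G) q z = comp σ N r F q z + comp σ N r G q z := by
  simp [comp, proj_add, add_div]

lemma comp_fun_smul (r : ℕ) (c : ℍ → ℂ) (F : Q → ℍ → ℂ) (q : Q) (z : ℍ) :
    comp σ N r (fun q => c * F q) q z = c z * comp σ N r F q z := by
  simp only [comp, proj_apply, Pi.mul_apply]
  rw [← mul_div_assoc]
  congr 1
  simp only [Finset.mul_sum]
  exact Finset.sum_congr rfl fun a _ => by ring

namespace IsAdm

variable {F G : Q → ℍ → ℂ}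

lemma leadr_add (hF : IsAdm σ F) (hG : IsAdm σ G) (hσ : ∀ q, σ^[N] q = q) {r : ℕ} (hr : r < N)
    (q : Q) : leadr σ N r (F + G) q = leadr σ N r F q + leadr σ N r G q := by
  apply leadr_eq_of_tendsto
  have := (hF.tendsto_comp hσ hr q).add (hG.tendsto_comp hσ hr q)
  refine this.congr fun z => ?_
  rw [comp_add]

lemma lead_add (hF : IsAdm σ F) (hG : IsAdm σ G) (hσ : ∀ q, σ^[N] q = q) :
    lead σ N (F + G) = lead σ N F + lead σ N G := by
  funext q
  simp only [lead, Pi.add_apply, ← Finset.sum_add_distrib]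
  exact Finset.sum_congr rfl fun r hr => hF.leadr_add hG hσ (mem_range.mp hr) q

lemma leadr_fun_smul (hF : IsAdm σ F) (hσ : ∀ q, σ^[N] q = q) {c : ℍ → ℂ} {c₀ : ℂ}
    (hc : Tendsto c atImInfty (𝓝 c₀)) {r : ℕ} (hr : r < N) (q : Q) :
    leadr σ N r (fun q => c * F q) q = c₀ * leadr σ N r F q := by
  apply leadr_eq_of_tendsto
  refine (hc.mul (hF.tendsto_comp hσ hr q)).congr fun z => ?_
  rw [comp_fun_smul]

/-- `lead (c F) = c(∞) lead F`. -/
lemma lead_fun_smul (hF : IsAdm σ F) (hσ : ∀ q, σ^[N] q = q) {c : ℍ → ℂ} {c₀ : ℂ}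
    (hc : Tendsto c atImInfty (𝓝 c₀)) :
    lead σ N (fun q => c * F q) = c₀ • lead σ N F := by
  funext q
  simp only [lead, Pi.smul_apply, smul_eq_mul, Finset.mul_sum]
  exact Finset.sum_congr rfl fun r hr => hF.leadr_fun_smul hσ hc (mem_range.mp hr) q

lemma lead_const_smul (hF : IsAdm σ F) (hσ : ∀ q, σ^[N] q = q) (c : ℂ) :
    lead σ N (c • F) = c • lead σ N F := by
  have h := hF.lead_fun_smul hσ (c := fun _ => c) (c₀ := c) tendsto_const_nhds
  have h2 : c • F = fun q => (fun _ : ℍ => c) * F q := by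
    funext q z; simp
  rw [h2]; exact h

end IsAdm

lemma lead_zero : lead σ N (0 : Q → ℍ → ℂ) = 0 := by
  funext q
  simp only [lead, Pi.zero_apply]
  refine Finset.sum_eq_zero fun r _ => ?_
  apply leadr_eq_of_tendsto
  have : comp σ N r (0 : Q → ℍ → ℂ) q = fun _ => 0 := by
    funext z; simp [comp, proj_zero_fun]
  rw [this]
  exact tendsto_const_nhds

/-- the leading vector of a finite combination `∑ c i * f i` with `1`-periodic coefficients. -/
theorem lead_sum_fun_smul {ι : Type*} (s : Finset ι) {f : ι → Q → ℍ → ℂ}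
    (hf : ∀ i ∈ s, IsAdm σ (f i)) (hσ : ∀ q, σ^[N] q = q) {c : ι → ℍ → ℂ} {c₀ : ι → ℂ}
    (hc : ∀ i ∈ s, MDiff (c i)) (hcb : ∀ i ∈ s, IsBoundedAtImInfty (c i))
    (hcp : ∀ i ∈ s, ∀ z : ℍ, c i ((1 : ℝ) +ᵥ z) = c i z)
    (hct : ∀ i ∈ s, Tendsto (c i) atImInfty (𝓝 (c₀ i))) :
    IsAdm σ (fun q => ∑ i ∈ s, c i * f i q) ∧
    lead σ N (fun q => ∑ i ∈ s, c i * f i q) = ∑ i ∈ s, c₀ i • lead σ N (f i) := by
  classical
  induction s using Finset.induction_on with
  | empty =>
    simp only [Finset.sum_empty]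
    exact ⟨IsAdm.zero, lead_zero⟩
  | insert a s ha ih =>
    have ih' := ih (fun i hi => hf i (mem_insert_of_mem hi)) (fun i hi => hc i (mem_insert_of_mem hi))
      (fun i hi => hcb i (mem_insert_of_mem hi)) (fun i hi => hcp i (mem_insert_of_mem hi))
      (fun i hi => hct i (mem_insert_of_mem hi))
    have ha' : IsAdm σ (fun q => c a * f a q) :=
      (hf a (mem_insert_self a s)).fun_smul (hc a (mem_insert_self a s))
        (hcb a (mem_insert_self a s)) (hcp a (mem_insert_self a s))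
    have heq : (fun q => ∑ i ∈ insert a s, c i * f i q)
        = (fun q => c a * f a q) + (fun q => ∑ i ∈ s, c i * f i q) := by
      funext q; simp [Finset.sum_insert ha]
    rw [heq, Finset.sum_insert ha]
    refine ⟨ha'.add ih'.1, ?_⟩
    rw [ha'.lead_add ih'.1 hσ, ih'.2,
      (hf a (mem_insert_self a s)).lead_fun_smul hσ (hct a (mem_insert_self a s))]

namespace IsAdm

variable {F G : Q → ℍ → ℂ}

/-- each component of an admissible vector has a limit at `i∞`: the `0`-th leading component. -/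
theorem tendsto_apply (hF : IsAdm σ F) (hN : N ≠ 0) (hσ : ∀ q, σ^[N] q = q) (q : Q) :
    Tendsto (F q) atImInfty (𝓝 (proj σ N 0 (lead σ N F) q)) := by
  have hN' : 0 < N := Nat.pos_of_ne_zero hN
  rw [hF.proj_lead hσ hN']
  have h1 : F q = fun z => ∑ r ∈ range N, qN N z ^ r * comp σ N r F q z := by
    funext z; exact eq_sum_comp hN F q z
  have h2 : leadr σ N 0 F q = ∑ r ∈ range N, (if r = 0 then leadr σ N 0 F q else 0) := by
    rw [Finset.sum_ite_eq' (range N) 0]; simp [hN']
  rw [h1, h2]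
  refine tendsto_finsetSum _ fun r hr => ?_
  have hr' := mem_range.mp hr
  split_ifs with h0
  · subst h0
    simpa using hF.tendsto_comp hσ hr' q
  · have hq : Tendsto (fun z => qN N z ^ r) atImInfty (𝓝 0) := by
      have := (tendsto_qN hN').pow r
      rwa [zero_pow h0] at this
    simpa using hq.mul (hF.tendsto_comp hσ hr' q)

lemma isZeroAtImInfty_iff (hF : IsAdm σ F) (hN : N ≠ 0) (hσ : ∀ q, σ^[N] q = q) :
    (∀ q, IsZeroAtImInfty (F q)) ↔ proj σ N 0 (lead σ N F) = 0 := by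
  constructor
  · intro h
    funext q
    exact tendsto_nhds_unique (hF.tendsto_apply hN hσ q) (h q)
  · intro h q
    have := hF.tendsto_apply hN hσ q
    rwa [h] at this

end IsAdm

/-- the `σ`-invariant vectors. -/
def invSub (σ : Q → Q) : Submodule ℂ (Q → ℂ) where
  carrier := {v | ∀ q, v (σ q) = v q}
  add_mem' ha hb q := by simp [ha q, hb q]
  zero_mem' _ := rfl
  smul_mem' c _ hv q := by simp [hv q]

lemma mem_invSub {v : Q → ℂ} : v ∈ invSub σ ↔ ∀ q, v (σ q) = v q := Iff.rfl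

lemma proj_zero_mem_invSub (hN : N ≠ 0) (hσ : ∀ q, σ^[N] q = q) (v : Q → ℂ) :
    proj σ N 0 v ∈ invSub σ := fun q => by
  rw [proj_shift hN hσ]; simp

lemma proj_zero_of_mem_invSub (hN : N ≠ 0) {v : Q → ℂ} (hv : v ∈ invSub σ) :
    proj σ N 0 v = v := by
  have := proj_of_eigen (σ := σ) (N := N) (r := 0) (s := 0) (Nat.pos_of_ne_zero hN)
    (Nat.pos_of_ne_zero hN) (F := v) (fun q => by simpa using hv q)
  simpa using this

end

end Fermat.Agent.S20.Infinity
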