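import Fermat.Agent.S20.Infinity.Twisted

/-!
# Finite Fourier projections attached to a self-map `σ` of finite order
-/

open Finset Function

namespace Fermat.Agent.S20.Infinity

noncomputable section

variable {Q : Type*} {X : Type*} [AddCommGroup X] [Module ℂ X]

/-- The projection onto the `ζ^r`-eigenspace of `F ↦ F ∘ σ`. -/
def proj (σ : Q → Q) (N r : ℕ) (F : Q → X) (q : Q) : X :=
  (N : ℂ)⁻¹ • ∑ a ∈ range N, ((zeta N)⁻¹ ^ (a * r)) • F (σ^[a] q)

lemma geom_sum_zero {w : ℂ} {N : ℕ} (hw : w ^ N = 1) (hw1 : w ≠ 1) :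
    ∑ a ∈ range N, w ^ a = 0 := by
  rw [geom_sum_eq hw1, hw, sub_self, zero_div]

lemma zeta_mul_inv_pow_ne_one {N r s : ℕ} (hr : r < N) (hs : s < N) (hrs : r ≠ s) :
    zeta N ^ s * (zeta N)⁻¹ ^ r ≠ 1 := by
  intro h
  have hz := zeta_ne_zero N
  have h1 : zeta N ^ s = zeta N ^ r := by
    rw [inv_pow] at h
    field_simp at h
    exact h
  exact hrs ((zeta_isPrimitiveRoot (by omega)).pow_inj hs hr h1).symm

lemma zeta_mul_inv_pow_pow {N : ℕ} (hN : N ≠ 0) (r s : ℕ) :
    (zeta N ^ s * (zeta N)⁻¹ ^ r) ^ N = 1 := by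
  rw [mul_pow, ← pow_mul, ← pow_mul, mul_comm s, mul_comm r, pow_mul, pow_mul, inv_pow,
    zeta_pow_self N hN]
  simp

variable {σ : Q → Q} {N : ℕ}

lemma proj_shift (hN : N ≠ 0) (hσ : ∀ q, σ^[N] q = q) (r : ℕ) (F : Q → X) (q : Q) :
    proj σ N r F (σ q) = zeta N ^ r • proj σ N r F q := by
  unfold proj
  rw [smul_comm]
  congr 1
  rw [Finset.smul_sum]
  have hz := zeta_ne_zero N
  -- u a := ζ^{-ar} F (σ^[a] q)
  set u : ℕ → X := fun a => ((zeta N)⁻¹ ^ (a * r)) • F (σ^[a] q) with hu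
  have h1 : ∀ a, ((zeta N)⁻¹ ^ (a * r)) • F (σ^[a] (σ q)) = zeta N ^ r • u (a + 1) := by
    intro a
    simp only [hu]
    rw [smul_smul, ← Function.iterate_succ_apply]
    congr 1
    rw [add_mul, one_mul, pow_add, inv_pow, inv_pow]
    field_simp
  simp_rw [h1]
  rw [← Finset.smul_sum, ← Finset.smul_sum]
  congr 1
  have h2 : u N = u 0 := by
    simp only [hu, hσ, iterate_zero, id_eq, zero_mul, pow_zero]
    rw [pow_mul, inv_pow, zeta_pow_self N hN]
    simp
  have h3 := Finset.sum_range_succ u N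
  have h4 := Finset.sum_range_succ' u N
  rw [h3, h2] at h4
  exact (add_right_cancel h4).symm

lemma iterate_eigen {F : Q → X} {c : ℂ} (hF : ∀ q, F (σ q) = c • F q) (a : ℕ) (q : Q) :
    F (σ^[a] q) = c ^ a • F q := by
  induction a with
  | zero => simp
  | succ a ih => rw [Function.iterate_succ_apply', hF, ih, smul_smul, pow_succ, mul_comm]

lemma proj_of_eigen {r s : ℕ} (hr : r < N) (hs : s < N) {F : Q → X}
    (hF : ∀ q, F (σ q) = zeta N ^ s • F q) :
    proj σ N r F = if r = s then F else 0 := by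
  have hN : N ≠ 0 := by omega
  funext q
  unfold proj
  have h1 : ∀ a, ((zeta N)⁻¹ ^ (a * r)) • F (σ^[a] q)
      = ((zeta N ^ s * (zeta N)⁻¹ ^ r) ^ a) • F q := by
    intro a
    rw [iterate_eigen hF, smul_smul]
    congr 1
    rw [mul_pow, ← pow_mul, ← pow_mul, mul_comm a r, mul_comm]
  simp_rw [h1]
  rw [← Finset.sum_smul]
  split_ifs with hrs
  · subst hrs
    have : zeta N ^ r * (zeta N)⁻¹ ^ r = 1 := by
      rw [inv_pow]; exact mul_inv_cancel₀ (pow_ne_zero _ (zeta_ne_zero N))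
    simp only [this, one_pow, sum_const, card_range, nsmul_eq_mul, mul_one]
    rw [smul_smul, inv_mul_cancel₀ (by exact_mod_cast hN), one_smul]
  · rw [geom_sum_zero (zeta_mul_inv_pow_pow hN r s) (zeta_mul_inv_pow_ne_one hr hs hrs)]
    simp

lemma sum_proj (hN : N ≠ 0) (F : Q → X) (q : Q) :
    ∑ r ∈ range N, proj σ N r F q = F q := by
  unfold proj
  rw [← Finset.smul_sum, Finset.sum_comm]
  have h1 : ∀ a ∈ range N, ∑ r ∈ range N, ((zeta N)⁻¹ ^ (a * r)) • F (σ^[a] q)
      = if a = 0 then (N : ℂ) • F q else 0 := by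
    intro a ha
    rw [← Finset.sum_smul]
    split_ifs with h0
    · subst h0; simp
    · have hw : ((zeta N)⁻¹ ^ a) ≠ 1 := by
        have := zeta_mul_inv_pow_ne_one (N := N) (r := a) (s := 0) (mem_range.mp ha)
          (Nat.pos_of_ne_zero hN) h0
        simpa using this
      have hw' : ((zeta N)⁻¹ ^ a) ^ N = 1 := by
        have := zeta_mul_inv_pow_pow hN a 0
        simpa using this
      simp_rw [pow_mul]
      rw [geom_sum_zero hw' hw, zero_smul]
  rw [Finset.sum_congr rfl h1, Finset.sum_ite_eq' (range N) 0]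
  simp only [mem_range, Nat.pos_of_ne_zero hN, if_true]
  rw [smul_smul, inv_mul_cancel₀ (by exact_mod_cast hN), one_smul]

lemma proj_add (r : ℕ) (F G : Q → X) : proj σ N r (F + G) = proj σ N r F + proj σ N r G := by
  funext q
  simp [proj, Finset.sum_add_distrib, smul_add]

lemma proj_smul (r : ℕ) (c : ℂ) (F : Q → X) : proj σ N r (c • F) = c • proj σ N r F := by
  funext q
  simp only [proj, Pi.smul_apply, Finset.smul_sum]
  refine Finset.sum_congr rfl fun a _ => ?_
  simp only [smul_smul]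
  congr 1; ring

lemma proj_zero_fun (r : ℕ) : proj σ N r (0 : Q → X) = 0 := by
  funext q; simp [proj]

end

end Fermat.Agent.S20.Infinity
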