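import Mathlib

/-!
# Twisted-periodic holomorphic functions on the upper half plane, behaviour at `i∞`
-/

open UpperHalfPlane hiding I
open Filter Function Complex Asymptotics
open scoped Manifold Topology Real

namespace Fermat.Agent.S20.Infinity

noncomputable section

/-- periodicity of `f ∘ ofComplex` from periodicity on `ℍ`. -/
lemma periodic_comp_ofComplex_of {f : ℍ → ℂ} {h : ℝ} (hf : ∀ z : ℍ, f (h +ᵥ z) = f z) :
    Periodic (f ∘ ofComplex) h := by
  intro w
  by_cases! hw : 0 < im w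
  · have : 0 < im (w + h) := by simp [hw]
    simp only [comp_apply, ofComplex_apply_of_im_pos this, ofComplex_apply_of_im_pos hw]
    rw [← hf ⟨w, hw⟩]
    congr 1
    ext
    simp [add_comm]
  · have : im (w + h) ≤ 0 := by simpa using hw
    simp [ofComplex_apply_of_im_nonpos this, ofComplex_apply_of_im_nonpos hw]

/-- the local parameter `exp (2 π i z / N)`. -/
def qN (N : ℕ) (z : ℍ) : ℂ := Periodic.qParam N z

/-- the root of unity `exp (2 π i / N)`. -/
def zeta (N : ℕ) : ℂ := Complex.exp (2 * π * I / N)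

lemma qN_ne_zero (N : ℕ) (z : ℍ) : qN N z ≠ 0 := Complex.exp_ne_zero _

lemma qN_vadd_one (N : ℕ) (z : ℍ) : qN N ((1 : ℝ) +ᵥ z) = zeta N * qN N z := by
  simp only [qN, zeta, Periodic.qParam, ← Complex.exp_add, coe_vadd]
  congr 1
  push_cast
  ring

lemma norm_qN (N : ℕ) (z : ℍ) : ‖qN N z‖ = Real.exp (-2 * π * z.im / N) := by
  simp [qN, Periodic.norm_qParam]

lemma mdiff_qN (N : ℕ) : MDiff (qN N) := by
  rw [UpperHalfPlane.mdifferentiable_iff]
  have : DifferentiableOn ℂ (fun w : ℂ => Periodic.qParam N w) {z | 0 < z.im} := by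
    unfold Periodic.qParam
    fun_prop
  refine this.congr ?_
  intro w hw
  simp [qN, ofComplex_apply_of_im_pos hw]

lemma zeta_isPrimitiveRoot {N : ℕ} (hN : N ≠ 0) : IsPrimitiveRoot (zeta N) N :=
  Complex.isPrimitiveRoot_exp N hN

lemma zeta_pow_self (N : ℕ) (hN : N ≠ 0) : zeta N ^ N = 1 := (zeta_isPrimitiveRoot hN).pow_eq_one

lemma zeta_ne_zero (N : ℕ) : zeta N ≠ 0 := Complex.exp_ne_zero _

lemma zeta_pow_ne_one {N j : ℕ} (hj : 0 < j) (hjN : j < N) : zeta N ^ j ≠ 1 :=
  (zeta_isPrimitiveRoot (by omega)).pow_ne_one_of_pos_of_lt hj.ne' hjN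

lemma tendsto_qN {N : ℕ} (hN : 0 < N) : Tendsto (qN N) atImInfty (𝓝 0) :=
  qParam_tendsto_atImInfty (by exact_mod_cast hN)

/-- A bounded periodic holomorphic function tends to its value at infinity. -/
lemma tendsto_valueAtInfty {f : ℍ → ℂ} {h : ℝ} (hh : 0 < h)
    (hper : ∀ z : ℍ, f (h +ᵥ z) = f z) (hf : MDiff f) (hb : IsBoundedAtImInfty f) :
    Tendsto f atImInfty (𝓝 (valueAtInfty f)) := by
  have hfper := periodic_comp_ofComplex_of hper
  have han := analyticAt_cuspFunction_zero hh hfper hf hb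
  have h0 := cuspFunction_apply_zero hh han hfper
  have : (cuspFunction h f ∘ fun τ : ℍ ↦ Periodic.qParam h τ : ℍ → ℂ) = f := by
    funext τ
    simpa using eq_cuspFunction τ hh.ne' hfper
  rw [← h0]
  simpa [this] using han.continuousAt.tendsto.comp (qParam_tendsto_atImInfty hh)

lemma tendsto_vadd_atImInfty (x : ℝ) : Tendsto (fun z : ℍ => x +ᵥ z) atImInfty atImInfty := by
  rw [atImInfty, tendsto_comap_iff]
  have : (UpperHalfPlane.im ∘ fun z : ℍ => x +ᵥ z) = UpperHalfPlane.im := by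
    funext z; simp
  rw [this]
  exact tendsto_comap

lemma twisted_iterate {g : ℍ → ℂ} {c : ℂ} (htw : ∀ z : ℍ, g ((1 : ℝ) +ᵥ z) = c * g z) (n : ℕ)
    (z : ℍ) : g ((n : ℝ) +ᵥ z) = c ^ n * g z := by
  induction n with
  | zero => simp
  | succ n ih =>
    have : (((n + 1 : ℕ) : ℝ) +ᵥ z) = (1 : ℝ) +ᵥ ((n : ℝ) +ᵥ z) := by
      ext; simp; ring
    rw [this, htw, ih]; ring

/-- If `g` is holomorphic, bounded at `i∞` and `g (z+1) = c * g z` with `c ^ N = 1`, `c ≠ 1`,
then `g` decays like `exp (-2 π y / N)`. -/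
lemma isBigO_of_twisted {N : ℕ} (hN : 0 < N) {g : ℍ → ℂ} (hg : MDiff g)
    (hb : IsBoundedAtImInfty g) {c : ℂ} (hcN : c ^ N = 1) (hc : c ≠ 1)
    (htw : ∀ z : ℍ, g ((1 : ℝ) +ᵥ z) = c * g z) :
    g =O[atImInfty] fun τ => Real.exp (-2 * π * τ.im / N) := by
  have hN' : (0 : ℝ) < N := by exact_mod_cast hN
  have hper : ∀ z : ℍ, g ((N : ℝ) +ᵥ z) = g z := fun z => by
    rw [twisted_iterate htw, hcN, one_mul]
  have ht := tendsto_valueAtInfty hN' hper hg hb
  have ht1 : Tendsto (fun z : ℍ => g ((1 : ℝ) +ᵥ z)) atImInfty (𝓝 (valueAtInfty g)) :=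
    ht.comp (tendsto_vadd_atImInfty 1)
  have ht2 : Tendsto (fun z : ℍ => g ((1 : ℝ) +ᵥ z)) atImInfty (𝓝 (c * valueAtInfty g)) := by
    simp_rw [htw]
    exact ht.const_mul c
  have hv : valueAtInfty g = 0 := by
    have := tendsto_nhds_unique ht1 ht2
    have h2 : (1 - c) * valueAtInfty g = 0 := by linear_combination this
    rcases mul_eq_zero.mp h2 with h | h
    · exact absurd (sub_eq_zero.mp h).symm hc
    · exact h
  simpa [hv] using exp_decay_sub_atImInfty hN' (periodic_comp_ofComplex_of hper) hg hb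

/-- **Twisted periodic lemma.** If `g` is holomorphic and bounded at `i∞` with
`g (z+1) = ζ^r g z`, `r < N`, then `g / q_N^r` is still bounded at `i∞`. -/
theorem twisted_bdd {N : ℕ} {g : ℍ → ℂ} (hg : MDiff g)
    (hb : IsBoundedAtImInfty g) {r : ℕ} (hr : r < N)
    (htw : ∀ z : ℍ, g ((1 : ℝ) +ᵥ z) = zeta N ^ r * g z) :
    IsBoundedAtImInfty (fun z => g z / qN N z ^ r) := by
  have hN : 0 < N := by omega
  suffices H : ∀ j : ℕ, j ≤ r → IsBoundedAtImInfty (fun z => g z / qN N z ^ j) from H r le_rfl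
  intro j
  induction j with
  | zero => intro _; simpa using hb
  | succ j ih =>
    intro hj
    have hbj := ih (by omega)
    have hgj : MDiff (fun z => g z / qN N z ^ j) :=
      hg.div ((mdiff_qN N).pow j) (fun z => pow_ne_zero _ (qN_ne_zero N z))
    have htwj : ∀ z : ℍ, g ((1 : ℝ) +ᵥ z) / qN N ((1 : ℝ) +ᵥ z) ^ j
        = zeta N ^ (r - j) * (g z / qN N z ^ j) := by
      intro z
      rw [htw, qN_vadd_one, mul_pow]
      have h1 : zeta N ^ r = zeta N ^ (r - j) * zeta N ^ j := by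
        rw [← pow_add]; congr 1; omega
      rw [h1]
      have := zeta_ne_zero N
      have := qN_ne_zero N z
      field_simp
    have hO := isBigO_of_twisted hN hgj hbj
      (c := zeta N ^ (r - j)) (by rw [← pow_mul, mul_comm, pow_mul, zeta_pow_self N hN.ne', one_pow])
      (zeta_pow_ne_one (by omega) (by omega)) htwj
    have hO' : (fun z => g z / qN N z ^ j) =O[atImInfty] (qN N) := by
      refine hO.trans (IsBigO.of_norm_right ?_)
      simp_rw [norm_qN]
      exact isBigO_refl _ _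
    have : (fun z => g z / qN N z ^ (j + 1)) = fun z => (g z / qN N z ^ j) / qN N z := by
      funext z; rw [pow_succ, div_mul_eq_div_div]
    rw [this, IsBoundedAtImInfty, BoundedAtFilter]
    have h3 := hO'.mul (isBigO_refl (fun z => (qN N z)⁻¹) atImInfty)
    have h4 : (fun z => g z / qN N z ^ j / qN N z) =O[atImInfty] (fun _ : ℍ => (1 : ℂ)) :=
      h3.congr (fun z => (div_eq_mul_inv _ _).symm) (fun z => mul_inv_cancel₀ (qN_ne_zero N z))
    exact h4.trans (isBigO_const_const _ one_ne_zero _)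

end

end Fermat.Agent.S20.Infinity
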